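import Fermat.Agent.S33.Defs
import Fermat.Agent.S33.Val.Cyc
import Fermat.Agent.S55.D.ULevel

/-!
# S33/RAW-CL : the ordinarity clause at ONE place over `p` is enough          key `S33/RAW-CL`  (sub-owner helper14)

`OrdClauseAt act p P` = the clause (P3) of `S33/Defs.lean` for the place `P`.  All places over `p` are conjugate
(`S55.D.exists_conj_Iq hP : ∃ g, (∀ i, i ∈ I_P ↔ g⁻¹ * i * g ∈ Iq q) ∧ …`).

PROOF of `ordClause_of_at`.  `P ∣ p`, `g` as above, `q = ⟨p, hp⟩`, `Iq q = (primeLocalPlace q).inertiaSubgroupIn ℚ` (rfl).  Given `σ₀, ζ, x` for `P` put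
`σ₀' = g⁻¹ σ₀ g ∈ Iq q`, `ζ' = g⁻¹ ζ`, `x' = act g⁻¹ x`.
* `x' ∈ augI act (Iq q)`: closure induction, `act g⁻¹ (act σ w - w) = act (g⁻¹ σ g) (act g⁻¹ w) - act g⁻¹ w`.
* `p • x' = 0`, `act σ₀' x' = x'`: apply `act g⁻¹`.
* `σ, σ' ∈ Iq q`, `c` an exponent of `σ` on `μ_p`: `g σ g⁻¹, g σ' g⁻¹ ∈ I_P` (`(hg _).2`, `g⁻¹ (g σ g⁻¹) g = σ`), `c` is an exponent of `g σ g⁻¹` on `μ_p`
  (`g σ g⁻¹ μ = g ((g⁻¹ μ) ^ c) = μ ^ c`); apply `act g⁻¹` to the hypothesis for `x`.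
So `x' = 0`, `x = act g x' = 0`.
`exists_moves_all`: conjugate `S33.exists_moves`.
-/

set_option autoImplicit false

namespace Fermat.Agent.S33

open Fermat.Agent.S29 (Qb GQ)
open ExtCitation

/-- clause (P3) at the place `P` -/
def OrdClauseAt {W : Type} [AddCommGroup W] (act : GQ →* AddMonoid.End W) (p : ℕ)
    (P : ValuationSubring Qb) : Prop :=
  ∀ σ₀ ∈ P.inertiaSubgroupIn ℚ, (∃ ζ : Qb, ζ ^ p = 1 ∧ σ₀ ζ ≠ ζ) →
    ∀ x ∈ augI act (P.inertiaSubgroupIn ℚ), p • x = 0 → act σ₀ x = x →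
      (∀ σ ∈ P.inertiaSubgroupIn ℚ, ∀ σ' ∈ P.inertiaSubgroupIn ℚ, ∀ c : ℕ,
        (∀ μ : Qb, μ ^ p = 1 → σ μ = μ ^ c) → act σ (act σ' x - x) = c • (act σ' x - x)) →
      x = 0

theorem clAux_act_mul {W : Type} [AddCommGroup W] (act : GQ →* AddMonoid.End W) (g h : GQ) (w : W) :
    act (g * h) w = act g (act h w) := by
  rw [map_mul]; rfl

theorem clAux_act_inv {W : Type} [AddCommGroup W] (act : GQ →* AddMonoid.End W) (g : GQ) (w : W) :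
    act g (act g⁻¹ w) = w := by
  rw [← clAux_act_mul, mul_inv_cancel, map_one]; rfl

theorem clAux_act_inv' {W : Type} [AddCommGroup W] (act : GQ →* AddMonoid.End W) (g : GQ) (w : W) :
    act g⁻¹ (act g w) = w := by
  rw [← clAux_act_mul, inv_mul_cancel, map_one]; rfl

theorem ordClause_of_at {W : Type} [AddCommGroup W] (act : GQ →* AddMonoid.End W) {p : ℕ}
    (hp : p.Prime) (h : OrdClauseAt act p (primeLocalPlace ⟨p, hp⟩)) : OrdClause act p := by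
  intro P hP σ₀ hσ₀ hζ x hx hpx hσx hall
  obtain ⟨g, hg, -⟩ := S55.D.exists_conj_Iq (q := ⟨p, hp⟩) hP
  have hg' : ∀ i, i ∈ P.inertiaSubgroupIn ℚ ↔
      g⁻¹ * i * g ∈ (primeLocalPlace ⟨p, hp⟩).inertiaSubgroupIn ℚ := hg
  have hback : ∀ σ ∈ (primeLocalPlace ⟨p, hp⟩).inertiaSubgroupIn ℚ,
      g * σ * g⁻¹ ∈ P.inertiaSubgroupIn ℚ := by
    intro σ hσ
    rw [hg']
    have : g⁻¹ * (g * σ * g⁻¹) * g = σ := by group
    rwa [this]
  have hconj : ∀ (σ : GQ) (w : W), act g⁻¹ (act σ w) = act (g⁻¹ * σ * g) (act g⁻¹ w) := by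
    intro σ w
    rw [← clAux_act_mul, ← clAux_act_mul]
    congr 2
    group
  have hconj2 : ∀ (σ : GQ) (w : W), act σ (act g⁻¹ w) = act g⁻¹ (act (g * σ * g⁻¹) w) := by
    intro σ w
    rw [← clAux_act_mul, ← clAux_act_mul]
    congr 2
    group
  have haug : ∀ y ∈ augI act (P.inertiaSubgroupIn ℚ),
      act g⁻¹ y ∈ augI act ((primeLocalPlace ⟨p, hp⟩).inertiaSubgroupIn ℚ) := by
    intro y hy
    unfold augI at hy ⊢
    induction hy using AddSubgroup.closure_induction with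
    | mem y hy =>
      obtain ⟨σ, hσ, w, rfl⟩ := hy
      refine AddSubgroup.subset_closure ⟨g⁻¹ * σ * g, (hg' σ).mp hσ, act g⁻¹ w, ?_⟩
      rw [map_sub, hconj]
    | zero => rw [map_zero]; exact zero_mem _
    | add a b _ _ ha hb => rw [map_add]; exact add_mem ha hb
    | neg a _ ha => rw [map_neg]; exact neg_mem ha
  obtain ⟨ζ, hζ1, hζ2⟩ := hζ
  have key : act g⁻¹ x = 0 := by
    refine h (g⁻¹ * σ₀ * g) ((hg' σ₀).mp hσ₀) ⟨g⁻¹ ζ, by rw [← map_pow, hζ1, map_one], ?_⟩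
      (act g⁻¹ x) ?_ ?_ ?_ ?_
    · intro hh
      apply hζ2
      have h1 : (g⁻¹ * σ₀ * g) (g⁻¹ ζ) = g⁻¹ (σ₀ ζ) := by
        show g⁻¹ (σ₀ (g (g⁻¹ ζ))) = _
        have : g (g⁻¹ ζ) = ζ := by
          show (g * g⁻¹) ζ = ζ
          rw [mul_inv_cancel]; rfl
        rw [this]
      rw [h1] at hh
      exact (g⁻¹ : GQ).injective hh
    · exact haug x hx
    · rw [← map_nsmul, hpx, map_zero]
    · rw [← hconj, hσx]
    · intro σ hσ σ' hσ' c hc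
      have h1 := hall (g * σ * g⁻¹) (hback σ hσ) (g * σ' * g⁻¹) (hback σ' hσ') c (by
        intro μ hμ
        show g (σ (g⁻¹ μ)) = μ ^ c
        rw [hc (g⁻¹ μ) (by rw [← map_pow, hμ, map_one]), map_pow]
        congr 1
        show (g * g⁻¹) μ = μ
        rw [mul_inv_cancel]; rfl)
      have h2 := congrArg (act g⁻¹) h1
      rw [← hconj2 σ, map_nsmul, map_sub, ← hconj2 σ'] at h2
      exact h2
  have := congrArg (act g) key
  rwa [clAux_act_inv, map_zero] at this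

/-- inertia at every place over `p ≠ 2` moves `ζ_p` -/
theorem exists_moves_all {p : ℕ} (hp : p.Prime) (hp2 : p ≠ 2) (P : ValuationSubring Qb)
    (hP : P.LiesOverPrime p) :
    ∃ σ₀ ∈ P.inertiaSubgroupIn ℚ, ∃ ζ : Qb, ζ ^ p = 1 ∧ σ₀ ζ ≠ ζ := by
  obtain ⟨g, hg, -⟩ := S55.D.exists_conj_Iq (q := ⟨p, hp⟩) hP
  obtain ⟨σ₀, hσ₀, ζ, hζ1, hζ2⟩ := exists_moves ⟨p, hp⟩ hp2
  refine ⟨g * σ₀ * g⁻¹, ?_, g ζ, ?_, ?_⟩
  · rw [hg]
    have : g⁻¹ * (g * σ₀ * g⁻¹) * g = σ₀ := by group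
    rwa [this]
  · rw [← map_pow]
    have : ζ ^ p = 1 := hζ1
    rw [this, map_one]
  · intro hh
    apply hζ2
    have h1 : (g * σ₀ * g⁻¹) (g ζ) = g (σ₀ ζ) := by
      show g (σ₀ (g⁻¹ (g ζ))) = _
      have : g⁻¹ (g ζ) = ζ := by
        show (g⁻¹ * g) ζ = ζ
        rw [inv_mul_cancel]; rfl
      rw [this]
    rw [h1] at hh
    exact g.injective hh

end Fermat.Agent.S33
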