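import Fermat.Agent.S33.Raw.ThmG
import Fermat.Agent.S33.Raw.Clause
import Fermat.Agent.S31.ES

/-!
# S33/RAW-KU : the ordinarity clause for the Kummer classes from `ThmGn`          keys `S33/RAW-KU-a,b`

`N = M1 * p`, `n = p ^ m`, `𝒲 = WW N n`, `act = actW N n`, `Θ = Theta hn hD`, `W1 = S31.W1 act Θ`, `A` a place, `I = A.inertiaSubgroupIn ℚ`.

(a) `exists_pdiv_of_mem_W1` : closure induction.  generator `act g (Θ c) = cl (gal N g (uK hD c))` (`Theta_apply`, `actW_cl`), `PDiv` by `PDiv.gal (pdiv_of_isKummer N n c c.2 _ (isKummer_uK hD c)) g`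
    (as in `S34.Theta_inertiaSq`); `0 = cl 1`; `+` : `cl_mul`, `PDiv.mul`; `-` : `cl u⁻¹` (`cl_mul` + `mul_inv_cancel₀`), `PDiv.inv`.
    `exists_rep_of_mem_augI` : closure induction on `x ∈ augI (act1 act Θ) I`.  generator `act1 σ w - w`, `(w : 𝒲) = cl u`: representative `gal N σ u * u⁻¹`; `UC2`: `S34.Mod.unit_cong_inertia hσ u hu0` and
    `unit_cong_inertia hσ (Wq h u) _` + `gal_Wq` (exactly `h2` in `S34.Mod.inertia_haupt`).  `UC2` is stable under products and inverses (`Cong.mul`, `Cong.inv`, units of `A`), `UC2 1` (`Cong.one`).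
(b) `ordClauseAt_of_thmGn` : `x ∈ augI`, `(x : 𝒲) = cl v`.  Translate with `cl_eq_zero`, `cl_mul`, `cl_pow`, `actW_cl`, `coe_act1`:
    `p • x = 0 ⟹ ∃ g, v ^ p = g ^ n`;  `act1 σ₀ x = x ⟹ cl (gal σ₀ v * v⁻¹) = 0 ⟹ gal σ₀ v = v * g ^ n`;  the quadratic hypothesis ⟹ `cl (gal σ (gal σ' v * v⁻¹) * ((gal σ' v * v⁻¹) ^ c)⁻¹) = 0`.
    `ThmGn`: `v = g ^ n`, so `(x : 𝒲) = cl (g ^ n) = 0` (`cl_eq_of_eq_mul` or `cls_pow_self`), `x = 0` (`Subtype.ext`).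
-/

set_option autoImplicit false
set_option synthInstance.maxHeartbeats 400000

open HahnSeries ModularCurve AlgebraicCurve Fermat.Agent.S24 Fermat.Agent.S29 Fermat.Agent.S18
  Fermat.Agent.ES Fermat.Agent.ES.Alg Fermat.Agent.S34.Mod Fermat.Agent.S31 ExtCitation
open Fermat.Agent.S55 (Dq Iq)

noncomputable section

namespace Fermat.Agent.S33

/-- the group generated by the Galois conjugates of the Kummer classes -/
abbrev WK {N n : ℕ} [NeZero N] (hn : n ≠ 0) (hD : Desc N n) : AddSubgroup (WW N n) :=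
  W1 (𝒲 := WW N n) (X := XN N) (actW N n) (Theta hn hD)

/-- the Galois action on it (type: `GQ →* AddMonoid.End (WK hn hD)`) -/
abbrev actK {N n : ℕ} [NeZero N] (hn : n ≠ 0) (hD : Desc N n) :=
  act1 (𝒲 := WW N n) (X := XN N) (actW N n) (Theta hn hD)

theorem kuAux_cl_one {N n : ℕ} : (cl (1 : FN N) one_ne_zero : WW N n) = 0 := by
  have : Units.mk0 (1 : FN N) one_ne_zero = 1 := Units.ext rfl
  rw [cl, this]
  rfl

theorem kuAux_neg_cl {N n : ℕ} {u : FN N} (hu : u ≠ 0) :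
    - (cl u hu : WW N n) = cl u⁻¹ (inv_ne_zero hu) := by
  have h1 : (cl u hu : WW N n) + cl u⁻¹ (inv_ne_zero hu) = 0 :=
    (cl_mul hu (inv_ne_zero hu)).symm.trans ((cl_congr _ (mul_inv_cancel₀ hu)).trans kuAux_cl_one)
  exact neg_eq_of_add_eq_zero_right (a := (cl u hu : WW N n)) h1

/-- [S33/RAW-KU-a] -/
theorem exists_pdiv_of_mem_W1 {N n : ℕ} [NeZero N] (hn : n ≠ 0) (hD : Desc N n) (w : WW N n)
    (hw : w ∈ WK hn hD) :
    ∃ (u : FN N) (hu : u ≠ 0), PDiv Kb (FN N) n u ∧ w = cl u hu := by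
  induction hw using AddSubgroup.closure_induction with
  | mem x hx =>
    obtain ⟨g, c, rfl⟩ := hx
    refine ⟨gal N g (uK hD c), (map_ne_zero_iff _ (gal N g).injective).mpr (uK_ne_zero hD c),
      PDiv.gal (pdiv_of_isKummer N n c c.2 _ (isKummer_uK hD c)) g, ?_⟩
    rw [Theta_apply, actW_cl]
  | zero => exact ⟨1, one_ne_zero, PDiv.one, kuAux_cl_one.symm⟩
  | add x y _ _ hx hy =>
    obtain ⟨u, hu, hP, rfl⟩ := hx
    obtain ⟨u', hu', hP', rfl⟩ := hy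
    exact ⟨u * u', mul_ne_zero hu hu', hP.mul hP', (cl_mul hu hu').symm⟩
  | neg x _ hx =>
    obtain ⟨u, hu, hP, rfl⟩ := hx
    exact ⟨u⁻¹, inv_ne_zero hu, hP.inv, kuAux_neg_cl hu⟩


variable {p : ℕ} [NeZero p] {M1 : ℕ} [NeZero M1]

theorem UC2.one (A : ValuationSubring Kb) (h : Nat.Coprime p M1) : UC2 A M1 h 1 := by
  refine ⟨⟨1, ?_⟩, ⟨1, ?_⟩⟩
  · simpa using (Cong.one : Cong A (M1 * p) 1)
  · simpa using (Cong.one : Cong A (M1 * p) 1)

theorem UC2.mul {A : ValuationSubring Kb} {h : Nat.Coprime p M1} {v v' : FN (M1 * p)}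
    (hv : UC2 A M1 h v) (hv' : UC2 A M1 h v') : UC2 A M1 h (v * v') := by
  obtain ⟨⟨a, ha⟩, ⟨b, hb⟩⟩ := hv
  obtain ⟨⟨a', ha'⟩, ⟨b', hb'⟩⟩ := hv'
  refine ⟨⟨a * a', ?_⟩, ⟨b * b', ?_⟩⟩
  · have := ha.mul ha'
    have e : algebraMap Kb (FN (M1 * p)) (((a * a' : Aˣ) : A) : Kb) * (v * v') =
        algebraMap Kb (FN (M1 * p)) ((a : A) : Kb) * v *
          (algebraMap Kb (FN (M1 * p)) ((a' : A) : Kb) * v') := by
      have e0 : (((a * a' : Aˣ) : A) : Kb) = ((a : A) : Kb) * ((a' : A) : Kb) := rfl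
      rw [e0, map_mul]; ring
    rw [e]; exact this
  · have := hb.mul hb'
    have e : algebraMap Kb (FN (M1 * p)) (((b * b' : Aˣ) : A) : Kb) * Wq h (v * v') =
        algebraMap Kb (FN (M1 * p)) ((b : A) : Kb) * Wq h v *
          (algebraMap Kb (FN (M1 * p)) ((b' : A) : Kb) * Wq h v') := by
      have e0 : (((b * b' : Aˣ) : A) : Kb) = ((b : A) : Kb) * ((b' : A) : Kb) := rfl
      rw [e0, map_mul, map_mul]; ring
    rw [e]; exact this

theorem UC2.inv {A : ValuationSubring Kb} {h : Nat.Coprime p M1} {v : FN (M1 * p)}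
    (hv : UC2 A M1 h v) : UC2 A M1 h v⁻¹ := by
  obtain ⟨⟨a, ha⟩, ⟨b, hb⟩⟩ := hv
  have key : ∀ c : Aˣ, (((c⁻¹ : Aˣ) : A) : Kb) = (((c : Aˣ) : A) : Kb)⁻¹ := by
    intro c
    apply eq_inv_of_mul_eq_one_left
    exact congrArg Subtype.val c.inv_mul
  refine ⟨⟨a⁻¹, ?_⟩, ⟨b⁻¹, ?_⟩⟩
  · have := ha.inv
    rw [mul_inv, ← map_inv₀] at this
    rw [key]; exact this
  · have := hb.inv
    rw [mul_inv, ← map_inv₀, ← map_inv₀] at this
    rw [key]; exact this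

/-- [S33/RAW-KU-a] -/
theorem exists_rep_of_mem_augI (hp : p.Prime) (h : Nat.Coprime p M1) {n : ℕ} (hn : n ≠ 0)
    (hD : Desc (M1 * p) n) (A : ValuationSubring Kb)
    (x : WK hn hD) (hx : x ∈ augI (actK hn hD) (A.inertiaSubgroupIn ℚ)) :
    ∃ (v : FN (M1 * p)) (hv : v ≠ 0), PDiv Kb (FN (M1 * p)) n v ∧ (x : WW (M1 * p) n) = cl v hv ∧
      UC2 A M1 h v := by
  induction hx using AddSubgroup.closure_induction with
  | mem y hy =>
    obtain ⟨σ, hσ, w, rfl⟩ := hy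
    obtain ⟨u, hu, hP, hw⟩ := exists_pdiv_of_mem_W1 hn hD w w.2
    have hgu : gal (M1 * p) σ u ≠ 0 := (map_ne_zero_iff _ (gal (M1 * p) σ).injective).mpr hu
    have hW0 : Wq h u ≠ 0 := (map_ne_zero_iff _ (Wq h).injective).mpr hu
    refine ⟨gal (M1 * p) σ u * u⁻¹, mul_ne_zero hgu (inv_ne_zero hu), (PDiv.gal hP σ).mul hP.inv,
      ?_, unit_cong_inertia hσ u hu, ?_⟩
    · rw [AddSubgroup.coe_sub, coe_act1, hw, actW_cl]
      refine sub_eq_iff_eq_add.mpr ?_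
      refine Eq.trans ?_ (cl_mul (mul_ne_zero hgu (inv_ne_zero hu)) hu)
      exact cl_congr _ (by rw [inv_mul_cancel_right₀ hu])
    · obtain ⟨a, ha⟩ := unit_cong_inertia hσ (Wq h u) hW0
      refine ⟨a, ?_⟩
      rwa [map_mul, map_inv₀, ← gal_Wq hp h]
  | zero => exact ⟨1, one_ne_zero, PDiv.one, kuAux_cl_one.symm, UC2.one A h⟩
  | add x y _ _ hx hy =>
    obtain ⟨u, hu, hP, hxu, hU⟩ := hx
    obtain ⟨u', hu', hP', hyu, hU'⟩ := hy
    refine ⟨u * u', mul_ne_zero hu hu', hP.mul hP', ?_, hU.mul hU'⟩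
    rw [AddSubgroup.coe_add, hxu, hyu]
    exact (cl_mul hu hu').symm
  | neg x _ hx =>
    obtain ⟨u, hu, hP, hxu, hU⟩ := hx
    refine ⟨u⁻¹, inv_ne_zero hu, hP.inv, ?_, hU.inv⟩
    rw [AddSubgroup.coe_neg, hxu]
    exact kuAux_neg_cl hu


omit [NeZero p] [NeZero M1] in
theorem kuAux_exists_of_cl_eq {N n : ℕ} {a b : FN N} (ha : a ≠ 0) (hb : b ≠ 0)
    (h : (cl a ha : WW N n) = cl b hb) : ∃ g : FN N, a = b * g ^ n := by
  have h1 : (QuotientGroup.mk (Units.mk0 a ha) : (FN N)ˣ ⧸ powSub N n) =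
      QuotientGroup.mk (Units.mk0 b hb) := h
  rw [QuotientGroup.eq] at h1
  obtain ⟨r, hr⟩ := h1
  have h2 : ((r : (FN N)ˣ) : FN N) ^ n = a⁻¹ * b := by
    have := congrArg (fun z : (FN N)ˣ => (z : FN N)) hr
    simpa using this
  refine ⟨(r : FN N)⁻¹, ?_⟩
  rw [inv_pow, h2]
  field_simp

/-- [S33/RAW-KU-b] -/
theorem ordClauseAt_of_thmGn (hp : p.Prime) (h : Nat.Coprime p M1) (m : ℕ)
    (hD : Desc (M1 * p) (p ^ m)) (hG : ThmGn hp M1 h m) :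
    OrdClauseAt (actK (pow_ne_zero m hp.ne_zero) hD) p (primeLocalPlace ⟨p, hp⟩) := by
  intro σ₀ hσ₀ hmv x hx hpx hfix hquad
  have hn : p ^ m ≠ 0 := pow_ne_zero m hp.ne_zero
  obtain ⟨v, hv0, hvP, hxv, hUC⟩ := exists_rep_of_mem_augI hp h hn hD _ x hx
  have hgal0 : ∀ σ : GQ, gal (M1 * p) σ v ≠ 0 := fun σ =>
    (map_ne_zero_iff _ (gal (M1 * p) σ).injective).mpr hv0
  have hact : ∀ σ : GQ, ((actK hn hD σ x : WK hn hD) : WW (M1 * p) (p ^ m)) =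
      cl (gal (M1 * p) σ v) (hgal0 σ) := by
    intro σ
    rw [coe_act1, hxv, actW_cl]
  have hy : ∀ σ' : GQ, ((actK hn hD σ' x - x : WK hn hD) : WW (M1 * p) (p ^ m)) =
      cl (gal (M1 * p) σ' v * v⁻¹) (mul_ne_zero (hgal0 σ') (inv_ne_zero hv0)) := by
    intro σ'
    rw [AddSubgroup.coe_sub, hact, hxv]
    refine sub_eq_iff_eq_add.mpr ?_
    refine Eq.trans ?_ (cl_mul (mul_ne_zero (hgal0 σ') (inv_ne_zero hv0)) hv0)
    exact cl_congr _ (by rw [inv_mul_cancel_right₀ hv0])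
  obtain ⟨g, hg⟩ := hG v hvP hUC
    (by
      have h1 : ((p • x : WK hn hD) : WW (M1 * p) (p ^ m)) = 0 := by rw [hpx]; rfl
      rw [AddSubgroup.coe_nsmul, hxv, ← cl_pow] at h1
      exact cl_eq_zero _ h1)
    σ₀ hσ₀ hmv
    (by
      have h1 := hact σ₀
      rw [hfix, hxv] at h1
      exact kuAux_exists_of_cl_eq _ _ h1.symm)
    (by
      intro σ hσ σ' hσ' c hc
      have h1 := congrArg (fun z : WK hn hD => (z : WW (M1 * p) (p ^ m))) (hquad σ hσ σ' hσ' c hc)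
      simp only [coe_act1, AddSubgroup.coe_nsmul] at h1
      rw [hy σ', actW_cl, ← cl_pow] at h1
      exact kuAux_exists_of_cl_eq _ _ h1)
  apply Subtype.ext
  rw [hxv]
  have : (cl v hv0 : WW (M1 * p) (p ^ m)) = cl (1 : FN (M1 * p)) one_ne_zero :=
    cl_eq_of_eq_mul hn hv0 one_ne_zero (by rw [one_mul]; exact hg)
  rw [this, kuAux_cl_one]
  rfl


end Fermat.Agent.S33
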