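import Fermat.Agent.S35.TorDesc
import Fermat.Agent.S29.Unique

/-!
# S33/RAW-D3 : descent of `p`-power roots from the level `lcm(N, 2)` to the level `N`, `p` odd (INCLUDING `p = 3`)      key `S33/RAW-D3`

`S35.mem_of_pow_pow_mem_lcm` needs `¬ p ∣ r + 1`; for `p = 3` we are forced to take `r = 2` (`r ≠ p`), `[F_{2N} : F_N] = 3`.  New argument (`mem_of_cube_mem`):

`u ∈ F_{2N}`, `u ≠ 0`, `u³ = v ∈ F_N`, `N` odd.  `x = iota (N * 2) ⟨u, hu⟩ ∈ Mer`.  `x³ = iota N ⟨u ^ 3, h3⟩` (`K2.iota_eq` / `S29.iota_eq`: `iota N θ = phiH (iotaQ N θ)`, and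
`iotaQ_eq`: `iotaQ` only depends on the Laurent series).
CLAIM: `merAct γ x = x` for all `γ ∈ Γ₀(N)`.  Then `S29.exists_root_of_invariant N 3 _ v x` gives `r : FN N` with `iota N r = x = iota (N * 2) u`, so `r.1 = u`
(`phiH`, `phiS` injective, `phiS_iotaQ`), i.e. `u ∈ F_N`.
Proof of the claim.  For `γ ∈ Γ₀(N)`: `(merAct γ x)³ = merAct γ (iota N v) = iota N v = x³` (`merAct_iota_of_mem`), so `merAct γ x = ω_γ x`, `ω_γ³ = 1`, and `ω_γ` is a constant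
(`S18.Descent.mem_of_pow_eq_one` with `K = ℂ`, `L = Mer`), fixed by every `merAct` (`merAct_const`).  Hence `ω_{γγ'} = ω_γ ω_γ'` (`merAct_mul`).
 (a) `γ ∈ Γ₀(2N)`: `ω_γ = 1` (`merAct_iota_of_mem` at level `N * 2`).
 (b) `L = [1 0; N 1]`: `L² ∈ Γ₀(2N)`, so `ω_L² = 1 = ω_L³`, `ω_L = 1`.
 (c) `γ = [a b; c d] ∈ Γ₀(N)`, `c` odd, `d` odd: `γ L⁻¹ = [*, *; c - d N, d] ∈ Γ₀(2N)` (`N` odd), so `ω_γ = 1`.
 (d) `c` odd, `d` even: `γ T = [*, *; c, c + d]` is in case (c), `T ∈ Γ₀(2N)`.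
`mem_of_pow_pow_mem_lcm_two`: `p ≠ 3`: `S35.mem_of_pow_pow_mem_lcm Nat.prime_two hp (¬ p ∣ 3)`.  `p = 3`: if `2 ∣ N`, `lcm = N`; else `lcm N 2 = N * 2`, induction on `k` as in
`S35.mem_of_pow_pow_mem_lcm` with `mem_of_cube_mem`.
-/

set_option autoImplicit false
set_option synthInstance.maxHeartbeats 400000

open HahnSeries ModularCurve AlgebraicCurve Fermat.Agent.S24 Fermat.Agent.S29 Fermat.Agent.S18
open CongruenceSubgroup
open scoped MatrixGroups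

namespace Fermat.Agent.S33

theorem d3Aux_mem_two {N : ℕ} (hN : ¬ 2 ∣ N) {γ : SL(2, ℤ)} (hγ : γ ∈ Gamma0 N)
    (h2 : (2 : ℤ) ∣ γ 1 0) : γ ∈ Gamma0 (N * 2) := by
  rw [Gamma0_mem, ZMod.intCast_zmod_eq_zero_iff_dvd] at hγ ⊢
  have hcop : IsCoprime (N : ℤ) ((2 : ℕ) : ℤ) :=
    Nat.isCoprime_iff_coprime.mpr ((Nat.Prime.coprime_iff_not_dvd Nat.prime_two).mpr hN).symm
  push_cast
  exact hcop.mul_dvd hγ h2

/-- `[1 0; N 1]` -/
def d3L (N : ℕ) : SL(2, ℤ) := ⟨!![1, 0; (N : ℤ), 1], by rw [Matrix.det_fin_two_of]; ring⟩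

theorem d3L_mem (N : ℕ) : d3L N ∈ Gamma0 N := by
  rw [Gamma0_mem]; simp [d3L]

theorem d3Aux_mul_L (N : ℕ) (γ : SL(2, ℤ)) :
    (γ * d3L N) 1 0 = γ 1 0 + γ 1 1 * N ∧ (γ * d3L N) 1 1 = γ 1 1 := by
  constructor <;>
  · rw [Matrix.SpecialLinearGroup.coe_mul, Matrix.mul_apply, Fin.sum_univ_two]
    simp [d3L]

theorem d3Aux_mul_T (γ : SL(2, ℤ)) :
    (γ * ModularGroup.T) 1 0 = γ 1 0 ∧ (γ * ModularGroup.T) 1 1 = γ 1 0 + γ 1 1 := by
  constructor <;>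
  · rw [Matrix.SpecialLinearGroup.coe_mul, Matrix.mul_apply, Fin.sum_univ_two]
    simp [ModularGroup.T]

theorem d3Aux_T_mem (N : ℕ) : ModularGroup.T ∈ Gamma0 N := by
  rw [Gamma0_mem]; simp [ModularGroup.T]

theorem mem_of_cube_mem {N : ℕ} [NeZero N] (hN : ¬ 2 ∣ N) {u : LaurentSeries Kb}
    (hu : u ∈ modularFunctionFieldBar (N * 2)) (h3 : u ^ 3 ∈ modularFunctionFieldBar N) :
    u ∈ modularFunctionFieldBar N := by
  by_cases hu0 : u = 0
  · rw [hu0]; exact zero_mem _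
  haveI : NeZero (N * 2) := ⟨mul_ne_zero (NeZero.ne N) two_ne_zero⟩
  obtain ⟨x, hxdef⟩ : ∃ x : Mer, x = iota (N * 2) ⟨u, hu⟩ := ⟨_, rfl⟩
  have hx0 : x ≠ 0 := by
    rw [hxdef]
    exact (map_ne_zero _).mpr (fun h => hu0 (congrArg Subtype.val h))
  have hx3 : x ^ 3 = iota N ⟨u ^ 3, h3⟩ := by
    have e : iotaQ (N * 2) (⟨u, hu⟩ ^ 3) = iotaQ N ⟨u ^ 3, h3⟩ :=
      iotaQ_eq (N * 2) _ _ (by rw [phiS_iotaQ]; rfl)
    rw [hxdef, ← map_pow, K2.iota_eq, K2.iota_eq, e]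
  have hinj : Function.Injective (algebraMap ℂ Mer) := (algebraMap ℂ Mer).injective
  have hNodd : Odd (N : ℤ) := by
    rw [← Int.not_even_iff_odd, even_iff_two_dvd]
    intro h
    exact hN (by exact_mod_cast h)
  -- the character
  have hA : ∀ γ ∈ Gamma0 N, ∃ ω : ℂ, ω ^ 3 = 1 ∧ merAct γ x = algebraMap ℂ Mer ω * x := by
    intro γ hγ
    have h1 : (merAct γ x / x) ^ 3 = 1 := by
      rw [div_pow, ← map_pow, hx3, merAct_iota_of_mem N hγ, div_self]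
      rw [← hx3]; exact pow_ne_zero _ hx0
    have h2 := Descent.mem_of_pow_eq_one (K := ℂ) (L := Mer) ⊥ (by norm_num : 0 < 3) h1
    obtain ⟨ω, hω⟩ := IntermediateField.mem_bot.mp h2
    refine ⟨ω, hinj ?_, by rw [hω, div_mul_cancel₀ _ hx0]⟩
    rw [map_pow, hω, h1, map_one]
  have hB : ∀ (γ γ' : SL(2, ℤ)) (ω ω' : ℂ), merAct γ x = algebraMap ℂ Mer ω * x →
      merAct γ' x = algebraMap ℂ Mer ω' * x → merAct (γ * γ') x = algebraMap ℂ Mer (ω * ω') * x := by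
    intro γ γ' ω ω' h h'
    rw [merAct_mul, h', map_mul, merAct_const, h, map_mul]
    ring
  have hC : ∀ (γ : SL(2, ℤ)) (ω : ℂ), merAct γ x = algebraMap ℂ Mer ω * x → merAct γ x = x → ω = 1 := by
    intro γ ω h h'
    apply hinj
    rw [h] at h'
    rw [map_one]
    exact mul_right_cancel₀ hx0 (by rw [h', one_mul])
  have ha : ∀ γ ∈ Gamma0 (N * 2), merAct γ x = x := by
    intro γ hγ
    rw [hxdef]
    exact merAct_iota_of_mem (N * 2) hγ _
  -- cancellation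
  have key : ∀ γ ∈ Gamma0 N, ∀ δ : SL(2, ℤ), merAct δ x = x → merAct (γ * δ) x = x →
      merAct γ x = x := by
    intro γ hγ δ hδ hγδ
    obtain ⟨ω, -, hω⟩ := hA γ hγ
    have h1 := hB γ δ ω 1 hω (by rw [map_one, one_mul]; exact hδ)
    rw [mul_one] at h1
    have := hC _ _ h1 hγδ
    rw [hω, this, map_one, one_mul]
  -- (b)
  have hb : merAct (d3L N) x = x := by
    obtain ⟨ω, hω3, hω⟩ := hA _ (d3L_mem N)
    have h1 := hB _ _ _ _ hω hω
    have h2 : d3L N * d3L N ∈ Gamma0 (N * 2) := by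
      refine d3Aux_mem_two hN (mul_mem (d3L_mem N) (d3L_mem N)) ?_
      rw [(d3Aux_mul_L N _).1]
      exact ⟨N, by simp [d3L]; ring⟩
    have h3 := hC _ _ h1 (ha _ h2)
    have h4 : ω = 1 := by
      have : ω ^ 3 = ω * ω * ω := by ring
      rw [this, h3, one_mul] at hω3
      exact hω3
    rw [hω, h4, map_one, one_mul]
  -- (c)
  have hc : ∀ γ ∈ Gamma0 N, Odd (γ 1 0) → Odd (γ 1 1) → merAct γ x = x := by
    intro γ hγ h10 h11
    refine key γ hγ (d3L N) hb (ha _ ?_)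
    refine d3Aux_mem_two hN (mul_mem hγ (d3L_mem N)) ?_
    rw [(d3Aux_mul_L N _).1, ← even_iff_two_dvd]
    exact h10.add_odd (h11.mul hNodd)
  have hinv : ∀ γ : Gamma0 N, merAct (γ : SL(2, ℤ)) x = x := by
    rintro ⟨γ, hγ⟩
    show merAct γ x = x
    rcases Int.even_or_odd (γ 1 0) with h10 | h10
    · exact ha _ (d3Aux_mem_two hN hγ (even_iff_two_dvd.mp h10))
    · rcases Int.even_or_odd (γ 1 1) with h11 | h11
      · refine key γ hγ ModularGroup.T (ha _ (d3Aux_T_mem _)) ?_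
        refine hc _ (mul_mem hγ (d3Aux_T_mem _)) ?_ ?_
        · rw [(d3Aux_mul_T γ).1]; exact h10
        · rw [(d3Aux_mul_T γ).2]; exact h10.add_even h11
      · exact hc γ hγ h10 h11
  obtain ⟨r, hr⟩ := exists_root_of_invariant N 3 (by norm_num) ⟨u ^ 3, h3⟩ x hx3 hinv
  have h5 : iotaQ N r = iotaQ (N * 2) ⟨u, hu⟩ := by
    apply phiH.injective
    rw [← K2.iota_eq, ← K2.iota_eq, hr, hxdef]
  have h6 : (r : LaurentSeries Kb) = u := by
    rw [← phiS_iotaQ N r, h5, phiS_iotaQ]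
  rw [← h6]
  exact r.2

theorem mem_of_pow_pow_mem_lcm_two {p : ℕ} (hp : p.Prime) (hp2 : p ≠ 2) {N : ℕ} [NeZero N] (k : ℕ)
    (u : LaurentSeries Kb) (hu : u ∈ modularFunctionFieldBar (Nat.lcm N 2))
    (h : u ^ (p ^ k) ∈ modularFunctionFieldBar N) : u ∈ modularFunctionFieldBar N := by
  by_cases hp3 : p = 3
  · subst hp3
    by_cases hN : 2 ∣ N
    · rwa [Nat.lcm_eq_left hN] at hu
    · have hl : Nat.lcm N 2 = N * 2 :=
        (((Nat.Prime.coprime_iff_not_dvd Nat.prime_two).mpr hN).symm).lcm_eq_mul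
      rw [hl] at hu
      induction k generalizing u with
      | zero => simpa using h
      | succ k ih =>
        apply ih u hu
        apply mem_of_cube_mem hN (pow_mem hu _)
        rw [← pow_mul, ← pow_succ]
        exact h
  · refine S35.mem_of_pow_pow_mem_lcm Nat.prime_two hp ?_ k u hu h
    intro hd
    exact hp3 ((Nat.prime_dvd_prime_iff_eq hp Nat.prime_three).mp hd)

end Fermat.Agent.S33
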