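import Fermat.Agent.S33.Raw.ThmG
import Fermat.Agent.S33.Raw.Desc

/-!
# S33/RAW-LV : descent of `ThmGn` from the level `lcm(M1, 2) * p` to the level `M1 * p`          key `S33/RAW-LV`

`thmGn_descent` : copy of `S35.torII_descent` (`S35/TorDesc.lean`).  `v ∈ F_{M1 p}`; `incl hle v` satisfies all the hypotheses of `ThmGn` at the level `M1' * p`:
`S35.PDiv.incl`, `S35.Cong.incl` + `map_mul`, `AlgHom.commutes`, `S35.Wq_incl` (as `c1`, `c2` there), `S35.incl_gal`, and every `∃ g : FN (M1 * p), …` is mapped by `incl hle` (a ring hom).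
Conclusion `incl hle v = g ^ (p ^ m)`, `g ∈ F_{M1' p}`, `g ^ (p ^ m) = v ∈ F_{M1 p}`, so `g ∈ F_{M1 p}` by `hdesc`.
`thmGn_of_lcm` : `M1' = lcm M1 2`; `hle`, `hle1` from `S18.Descent.bar_le`; `hdesc` from `mem_of_pow_pow_mem_lcm_two` and `S35.lcm_mul_of_ne` (see `S34.Mod.inertia_pow`).
-/

set_option autoImplicit false
set_option synthInstance.maxHeartbeats 400000

open HahnSeries ModularCurve AlgebraicCurve Fermat.Agent.S24 Fermat.Agent.S29 Fermat.Agent.S18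
  Fermat.Agent.ES Fermat.Agent.ES.Alg Fermat.Agent.S34.Mod ExtCitation
open Fermat.Agent.S55 (Dq Iq)

namespace Fermat.Agent.S33

variable {p : ℕ} [NeZero p]

theorem thmGn_descent (hp : p.Prime) {M1 M1' : ℕ} [NeZero M1] [NeZero M1'] (h : Nat.Coprime p M1)
    (h' : Nat.Coprime p M1') (m : ℕ)
    (hle1 : modularFunctionFieldBar M1 ≤ modularFunctionFieldBar M1')
    (hle : modularFunctionFieldBar (M1 * p) ≤ modularFunctionFieldBar (M1' * p))
    (hdesc : ∀ g : LaurentSeries Kb, g ∈ modularFunctionFieldBar (M1' * p) →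
      g ^ (p ^ m) ∈ modularFunctionFieldBar (M1 * p) → g ∈ modularFunctionFieldBar (M1 * p))
    (hT : ThmGn hp M1' h' m) : ThmGn hp M1 h m := by
  intro v hv ⟨⟨a, ha⟩, ⟨a₂, ha₂⟩⟩ ⟨g1, hg1⟩ σ₀ hσ₀ hζ ⟨g2, hg2⟩ hall
  have c1 : Cong (primeLocalPlace ⟨p, hp⟩) (M1' * p)
      (algebraMap Kb (FN (M1' * p)) ((a : (primeLocalPlace ⟨p, hp⟩ : ValuationSubring Kb)) : Kb) *
        S35.incl hle v) := by
    have := S35.Cong.incl hle ha
    rwa [map_mul, AlgHom.commutes] at this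
  have c2 : Cong (primeLocalPlace ⟨p, hp⟩) (M1' * p)
      (algebraMap Kb (FN (M1' * p)) ((a₂ : (primeLocalPlace ⟨p, hp⟩ : ValuationSubring Kb)) : Kb) *
        Wq h' (S35.incl hle v)) := by
    have := S35.Cong.incl hle ha₂
    rwa [map_mul, AlgHom.commutes, ← S35.Wq_incl hp h h' hle1 hle] at this
  obtain ⟨g, hg⟩ := hT (S35.incl hle v) (S35.PDiv.incl hle hv) ⟨⟨a, c1⟩, ⟨a₂, c2⟩⟩
    ⟨S35.incl hle g1, by rw [← map_pow, hg1, map_pow]⟩ σ₀ hσ₀ hζ
    ⟨S35.incl hle g2, by rw [S35.incl_gal, hg2, map_mul, map_pow]⟩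
    (fun σ hσ σ' hσ' c hc => by
      obtain ⟨g3, hg3⟩ := hall σ hσ σ' hσ' c hc
      refine ⟨S35.incl hle g3, ?_⟩
      rw [S35.incl_gal, ← map_inv₀, ← map_mul, S35.incl_gal, hg3, map_mul, map_pow, map_pow])
  have hg' : (g : LaurentSeries Kb) ^ (p ^ m) = (v : LaurentSeries Kb) := by
    have h1 := congrArg (fun x : FN (M1' * p) => (x : LaurentSeries Kb)) hg
    simp only [S35.coe_incl] at h1
    rw [h1]
    rfl
  have hgm : (g : LaurentSeries Kb) ∈ modularFunctionFieldBar (M1 * p) :=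
    hdesc _ g.2 (by rw [hg']; exact v.2)
  exact ⟨⟨g, hgm⟩, Subtype.ext hg'.symm⟩

omit [NeZero p] in
theorem coprime_lcm_two (hp : p.Prime) (hp2 : p ≠ 2) {M1 : ℕ} (h : Nat.Coprime p M1) :
    Nat.Coprime p (Nat.lcm M1 2) := by
  rw [Nat.Prime.coprime_iff_not_dvd hp]
  intro hd
  rcases (hp.dvd_mul).mp (hd.trans (Nat.lcm_dvd_mul M1 2)) with h1 | h1
  · exact (Nat.Prime.coprime_iff_not_dvd hp).mp h h1
  · exact hp2 ((Nat.prime_dvd_prime_iff_eq hp Nat.prime_two).mp h1)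

instance neZero_lcm_two (M1 : ℕ) [NeZero M1] : NeZero (Nat.lcm M1 2) :=
  ⟨Nat.lcm_ne_zero (NeZero.ne M1) two_ne_zero⟩

theorem thmGn_of_lcm (hp : p.Prime) (hp2 : p ≠ 2) {M1 : ℕ} [NeZero M1] (h : Nat.Coprime p M1) (m : ℕ)
    (hT : ThmGn hp (Nat.lcm M1 2) (coprime_lcm_two hp hp2 h) m) : ThmGn hp M1 h m := by
  refine thmGn_descent hp h (coprime_lcm_two hp hp2 h) m (Descent.bar_le (Nat.dvd_lcm_left M1 2))
    (Descent.bar_le (Nat.mul_dvd_mul_right (Nat.dvd_lcm_left M1 2) p)) ?_ hT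
  intro g hg hgm
  rw [← S35.lcm_mul_of_ne hp Nat.prime_two (Ne.symm hp2)] at hg
  exact mem_of_pow_pow_mem_lcm_two hp hp2 m g hg hgm

end Fermat.Agent.S33
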