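import Fermat.Agent.S33.Raw.ThmG
import Fermat.Agent.S35.Idem

/-!
# S33/RAW-NM : from Theorem G (exponent `p`, `≡ 1`) to `ThmGn` (exponent `p ^ m`, `≡` unit constants), under `Setup`      keys `S33/RAW-NM-a,b,c,d`

`A ∣ p` any place, `S : Setup M1 p r A`, `F = FN (M1 * p)`, `W = Wq S.hc`, `n ≠ 0`.

(a) `exists_norm` ('00' representative).  `UC2 A M1 S.hc v`: `Cong (a₁ v)`, `Cong (a₂ W v)`, `a_i ∈ Aˣ`.  Choose `b_i ∈ Kb` with `b_i ^ n = a_i` (`IsAlgClosed.exists_pow_nat_eq`); `b_i ∈ A` (integrally closed: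
    `ValuationSubring` : `b ∉ A ⟹ b⁻¹ ∈ 𝔪 ⟹ a⁻¹ = (b⁻¹)^n ∈ 𝔪`), unit.  `S.exists_e : ∃ e : V2 A S.hc, r1 e = 1 ∧ r2 e = 0`.  `g = b₁ e + b₂ (1 - e) ∈ V2`, `r1 g = b̄₁`, `r2 g = b̄₂` (constants:
    `algebraMap_mem_Vinf`, `resInf_algebraMap`, `Wq` is a `Kb`-algebra map).  `cong_iff` : `Cong A N f ↔ ∃ h : f ∈ Vinf, resInf ⟨f, h⟩ = 1`.   `v g^n = (a₁ v) (g^n a₁⁻¹)`, `resInf (g^n a₁⁻¹) = 1`; same for `W`.
(b) `exists_root` : `m = k + 1`.  `v ^ p = g ^ (p ^ (k+1)) = (g ^ (p ^ k)) ^ p`, so `v = ζ g ^ (p ^ k)`, `ζ ^ p = 1`, `ζ ∈ Kb` (`S18.Descent.mem_of_pow_eq_one`), `ζ = ξ ^ (p ^ k)`: `u = ξ g`.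
    `PDiv p u`: `p ^ (k+1) ∣ ord_P v = p ^ k ord_P u`.
(c) `cong_of_pow` : `Cong (u ^ (p ^ k)) ⟹ Cong u`.  `u ∈ Vinf` (`mem_Vinf_of_isIntegral`), `(resInf u) ^ (p ^ k) = 1` in `LaurentSeries (kA A)`, a domain of characteristic `p` (`CharP (kA A) p` from `S.hA`; see `S34/Mod/Level.lean`
    `qExpand_tq`, `pow_char_eq_qExpand`), so `(resInf u - 1) ^ (p ^ k) = 0` (`sub_pow_char_pow`).
(d) `root_unique` : `a ^ (p ^ k) = b ^ (p ^ k) * g ^ (p ^ (k+1)) ⟹ ∃ g', a = b * g' ^ p` (`b ≠ 0`; `(a / (b g^p)) ^ (p^k) = 1`, a constant, a `p`-th power).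
(e) `thmGn_of_thmG` : `m = 0` trivial (`g = v`).  `m = k + 1`: (a) with `n = p ^ m`: `v' = v g₀ ^ n`; all hypotheses of `ThmGn` hold for `v'` (multiply the witnesses by `gal σ g₀ / g₀` …); (b): `v' = u ^ (p ^ k)`; (c): `Cong u`, `Cong (W u)`;
    (d) translates the two Galois hypotheses to `u` (exponent `p`); `ThmG`: `u = g ^ p`, `v = (g / g₀') ^ (p ^ m)`.
-/

set_option autoImplicit false
set_option synthInstance.maxHeartbeats 400000

open HahnSeries ModularCurve AlgebraicCurve Fermat.Agent.S24 Fermat.Agent.S29 Fermat.Agent.S18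
  Fermat.Agent.ES Fermat.Agent.ES.Alg Fermat.Agent.S34.Mod ExtCitation
open Fermat.Agent.S55 (Dq Iq)

namespace Fermat.Agent.S33

variable {p : ℕ} [NeZero p] {M1 r : ℕ} [NeZero M1] [NeZero r] {A : ValuationSubring Kb}

/-- `n`-th roots of units of `A` -/
theorem nmAux_exists_root (A : ValuationSubring Kb) {n : ℕ} (hn : n ≠ 0) (a : Aˣ) :
    ∃ c : A, c ^ n = (a : A) := by
  obtain ⟨b, hb⟩ := IsAlgClosed.exists_pow_nat_eq (((a : A) : Kb)) (Nat.pos_of_ne_zero hn)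
  have hbA : b ∈ A := by
    rcases A.mem_or_inv_mem b with h | h
    · exact h
    · have hb0 : b ≠ 0 := by
        rintro rfl
        rw [zero_pow hn] at hb
        have : (a : A) = 0 := Subtype.ext hb.symm
        exact a.ne_zero this
      have e : b = b ^ n * b⁻¹ ^ (n - 1) := by
        obtain ⟨k, rfl⟩ : ∃ k, n = k + 1 := ⟨n - 1, by omega⟩
        rw [Nat.add_sub_cancel, pow_succ, inv_pow]
        field_simp
      rw [e, hb]
      exact mul_mem (a : A).2 (pow_mem h _)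
  exact ⟨⟨b, hbA⟩, Subtype.ext hb⟩

/-- a function with constant reduction `c̄`, `c ^ n = a`, gives `Cong (a⁻¹ g ^ n)` -/
theorem nmAux_cong {N : ℕ} [NeZero N] {n : ℕ} (a : Aˣ) (c : A) (hc : c ^ n = (a : A))
    (g : Vinf A N) (hg : resInf A N g = HahnSeries.C (IsLocalRing.residue A c)) :
    Cong A N (algebraMap Kb (FN N) (((a⁻¹ : Aˣ) : A) : Kb) * (g : FN N) ^ n) := by
  let aV : Vinf A N := ⟨algebraMap Kb (FN N) (((a⁻¹ : Aˣ) : A) : Kb), algebraMap_mem_Vinf _⟩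
  refine cong_iff.mpr ⟨(aV * g ^ n).2, ?_⟩
  show resInf A N (aV * g ^ n) = 1
  rw [map_mul, map_pow, hg, resInf_algebraMap, ← map_pow, ← map_pow, ← map_mul, ← map_mul, hc,
    Units.inv_mul, map_one, map_one]

/-- [S33/RAW-NM-a] -/
theorem exists_norm (S : Setup M1 p r A) {n : ℕ} (hn : n ≠ 0) (v : FN (M1 * p))
    (hv : UC2 A M1 S.hc v) :
    ∃ g : FN (M1 * p), g ≠ 0 ∧ Cong A (M1 * p) (v * g ^ n) ∧ Cong A (M1 * p) (Wq S.hc (v * g ^ n)) := by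
  obtain ⟨⟨a₁, h₁⟩, ⟨a₂, h₂⟩⟩ := hv
  obtain ⟨c₁, hc₁⟩ := nmAux_exists_root A hn a₁
  obtain ⟨c₂, hc₂⟩ := nmAux_exists_root A hn a₂
  obtain ⟨e, he1, he2⟩ := exists_e S
  have hcst : ∀ c : A, algebraMap Kb (FN (M1 * p)) (c : Kb) ∈ V2 A S.hc := fun c =>
    mem_V2.mpr ⟨algebraMap_mem_Vinf c, by rw [AlgEquiv.commutes]; exact algebraMap_mem_Vinf c⟩
  have hr1 : ∀ c : A, r1 A S.hc ⟨_, hcst c⟩ = HahnSeries.C (IsLocalRing.residue A c) := fun c => by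
    rw [r1_mk]; exact resInf_algebraMap c
  have hr2 : ∀ c : A, r2 A S.hc ⟨_, hcst c⟩ = HahnSeries.C (IsLocalRing.residue A c) := fun c => by
    rw [r2_mk]
    have : (⟨Wq S.hc (algebraMap Kb (FN (M1 * p)) (c : Kb)), (hcst c).2⟩ : Vinf A (M1 * p)) =
        ⟨algebraMap Kb (FN (M1 * p)) (c : Kb), algebraMap_mem_Vinf c⟩ :=
      Subtype.ext (AlgEquiv.commutes _ _)
    rw [this]; exact resInf_algebraMap c
  set g : V2 A S.hc := ⟨_, hcst c₁⟩ * e + ⟨_, hcst c₂⟩ * (1 - e) with hg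
  have hg1 : r1 A S.hc g = HahnSeries.C (IsLocalRing.residue A c₁) := by
    rw [hg, map_add, map_mul, map_mul, map_sub, map_one, he1, sub_self, mul_zero, mul_one,
      add_zero, hr1]
  have hg2 : r2 A S.hc g = HahnSeries.C (IsLocalRing.residue A c₂) := by
    rw [hg, map_add, map_mul, map_mul, map_sub, map_one, he2, sub_zero, mul_zero, mul_one,
      zero_add, hr2]
  have hinv : ∀ a : Aˣ, algebraMap Kb (FN (M1 * p)) ((a : A) : Kb) *
      algebraMap Kb (FN (M1 * p)) (((a⁻¹ : Aˣ) : A) : Kb) = 1 := by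
    intro a
    rw [← map_mul]
    have : ((a : A) : Kb) * (((a⁻¹ : Aˣ) : A) : Kb) = 1 := congrArg Subtype.val a.mul_inv
    rw [this, map_one]
  refine ⟨(g : FN (M1 * p)), ?_, ?_, ?_⟩
  · intro h0
    have : g = 0 := Subtype.ext h0
    rw [this, map_zero] at hg1
    have h3 : IsLocalRing.residue A c₁ = 0 := by
      have := congrArg (fun s => HahnSeries.coeff s 0) hg1
      simpa using this.symm
    have h4 : IsLocalRing.residue A (a₁ : A) = 0 := by rw [← hc₁, map_pow, h3, zero_pow hn]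
    exact ((IsLocalRing.residue_eq_zero_iff _).mp h4) a₁.isUnit
  · have h3 := h₁.mul (nmAux_cong a₁ c₁ hc₁ ⟨(g : FN (M1 * p)), g.2.1⟩ hg1)
    have e1 : algebraMap Kb (FN (M1 * p)) ((a₁ : A) : Kb) * v *
        (algebraMap Kb (FN (M1 * p)) (((a₁⁻¹ : Aˣ) : A) : Kb) * (g : FN (M1 * p)) ^ n) =
        (algebraMap Kb (FN (M1 * p)) ((a₁ : A) : Kb) *
          algebraMap Kb (FN (M1 * p)) (((a₁⁻¹ : Aˣ) : A) : Kb)) * (v * (g : FN (M1 * p)) ^ n) := by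
      ring
    rw [e1, hinv, one_mul] at h3
    exact h3
  · have h3 := h₂.mul (nmAux_cong a₂ c₂ hc₂ ⟨Wq S.hc (g : FN (M1 * p)), g.2.2⟩ hg2)
    have e1 : algebraMap Kb (FN (M1 * p)) ((a₂ : A) : Kb) * Wq S.hc v *
        (algebraMap Kb (FN (M1 * p)) (((a₂⁻¹ : Aˣ) : A) : Kb) * (Wq S.hc (g : FN (M1 * p))) ^ n) =
        (algebraMap Kb (FN (M1 * p)) ((a₂ : A) : Kb) *
          algebraMap Kb (FN (M1 * p)) (((a₂⁻¹ : Aˣ) : A) : Kb)) *
          (Wq S.hc v * (Wq S.hc (g : FN (M1 * p))) ^ n) := by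
      ring
    rw [e1, hinv, one_mul] at h3
    rw [map_mul, map_pow]
    exact h3

/-- a root of unity of `FN N` is an `m`-th power (of a constant), for every `m ≠ 0` -/
theorem nmAux_root_of_unity {N : ℕ} [NeZero N] {n m : ℕ} (hn : 0 < n) (hm : 0 < m) (z : FN N)
    (hz : z ^ n = 1) : ∃ ξ : FN N, ξ ≠ 0 ∧ z = ξ ^ m := by
  have h1 : z ∈ (⊥ : IntermediateField Kb (FN N)) := S18.Descent.mem_of_pow_eq_one _ hn hz
  obtain ⟨a, rfl⟩ := IntermediateField.mem_bot.mp h1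
  obtain ⟨b, hb⟩ := IsAlgClosed.exists_pow_nat_eq a hm
  refine ⟨algebraMap Kb (FN N) b, ?_, by rw [← map_pow, hb]⟩
  intro h0
  have hb0 : b = 0 := (map_eq_zero _).mp h0
  rw [hb0, zero_pow hm.ne'] at hb
  rw [← hb, map_zero, zero_pow hn.ne'] at hz
  exact zero_ne_one hz

/-- [S33/RAW-NM-b] -/
theorem exists_root {N : ℕ} [NeZero N] (hp : p.Prime) (k : ℕ) (v g : FN N)
    (hv : PDiv Kb (FN N) (p ^ (k + 1)) v) (h : v ^ p = g ^ (p ^ (k + 1))) :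
    ∃ u : FN N, v = u ^ (p ^ k) ∧ PDiv Kb (FN N) p u := by
  have hv0 : v ≠ 0 := hv.1
  have hg0 : g ≠ 0 := by
    rintro rfl
    rw [zero_pow (pow_ne_zero _ hp.ne_zero)] at h
    exact hv0 (pow_eq_zero_iff hp.ne_zero |>.mp h)
  have hpk : 0 < p ^ k := pow_pos hp.pos k
  obtain ⟨ξ, hξ0, hξ⟩ := nmAux_root_of_unity (N := N) hp.pos hpk (v * (g ^ (p ^ k))⁻¹) (by
    rw [mul_pow, inv_pow, h, ← pow_mul, ← pow_succ]
    exact mul_inv_cancel₀ (pow_ne_zero _ hg0))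
  have hu : v = (ξ * g) ^ (p ^ k) := by
    rw [mul_pow, ← hξ]
    field_simp
  refine ⟨ξ * g, hu, mul_ne_zero hξ0 hg0, fun P => ?_⟩
  have h1 := hv.2 P
  rw [hu, ord_pow'] at h1
  have h2 : ((p ^ (k + 1) : ℕ) : ℤ) = ((p ^ k : ℕ) : ℤ) * (p : ℤ) := by push_cast; ring
  rw [h2] at h1
  exact (mul_dvd_mul_iff_left (by exact_mod_cast hpk.ne')).mp h1

/-- [S33/RAW-NM-c] -/
theorem cong_of_pow {N : ℕ} [NeZero N] (hp : p.Prime) (hA : A.LiesOverPrime p) (k : ℕ) (u : FN N)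
    (h : Cong A N (u ^ (p ^ k))) : Cong A N u := by
  obtain ⟨h1, h2⟩ := cong_iff.mp h
  have hpk : 0 < p ^ k := pow_pos hp.pos k
  have hu : u ∈ Vinf A N := by
    refine mem_Vinf_of_isIntegral ⟨Polynomial.X ^ (p ^ k) - Polynomial.C ⟨_, h1⟩,
      Polynomial.monic_X_pow_sub_C _ hpk.ne', ?_⟩
    simp
  refine cong_iff.mpr ⟨hu, ?_⟩
  haveI : CharP (kA A) p := charP_kA hp hA
  haveI : Fact p.Prime := ⟨hp⟩
  haveI : CharP (LaurentSeries (kA A)) p :=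
    charP_of_injective_ringHom (HahnSeries.C_injective (Γ := ℤ) (R := kA A)) p
  have h3 : (resInf A N ⟨u, hu⟩) ^ (p ^ k) = 1 := by
    rw [← map_pow, ← h2]
    rfl
  have h4 : (resInf A N ⟨u, hu⟩ - 1) ^ (p ^ k) = 0 := by
    rw [sub_pow_char_pow, h3, one_pow, sub_self]
  exact sub_eq_zero.mp (pow_eq_zero_iff hpk.ne' |>.mp h4)

/-- [S33/RAW-NM-d] -/
theorem root_unique {N : ℕ} [NeZero N] (hp : p.Prime) (k : ℕ) (a b g : FN N) (hb : b ≠ 0)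
    (h : a ^ (p ^ k) = b ^ (p ^ k) * g ^ (p ^ (k + 1))) : ∃ g' : FN N, a = b * g' ^ p := by
  have hpk : 0 < p ^ k := pow_pos hp.pos k
  by_cases hg0 : g = 0
  · subst hg0
    rw [zero_pow (pow_ne_zero _ hp.ne_zero), mul_zero] at h
    refine ⟨0, ?_⟩
    rw [zero_pow hp.ne_zero, mul_zero]
    exact pow_eq_zero_iff hpk.ne' |>.mp h
  obtain ⟨ξ, hξ0, hξ⟩ := nmAux_root_of_unity (N := N) hpk hp.pos (a * (b * g ^ p)⁻¹) (by
    rw [mul_pow, inv_pow, h, mul_pow, ← pow_mul, mul_comm p, ← pow_succ]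
    exact mul_inv_cancel₀ (mul_ne_zero (pow_ne_zero _ hb) (pow_ne_zero _ hg0)))
  refine ⟨ξ * g, ?_⟩
  rw [mul_pow, ← hξ]
  field_simp

set_option maxHeartbeats 1000000 in
/-- [S33/RAW-NM-e] -/
theorem thmGn_of_thmG (hp : p.Prime) (S : Setup M1 p r (primeLocalPlace ⟨p, hp⟩))
    (hG : ThmG hp M1 S.hc) (m : ℕ) : ThmGn hp M1 S.hc m := by
  intro v hvP hUC ⟨g1, hg1⟩ σ₀ hσ₀ hmv ⟨g2, hg2⟩ hquad
  cases m with
  | zero => exact ⟨v, by simp⟩
  | succ k =>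
    set n := p ^ (k + 1) with hn
    have hn0 : n ≠ 0 := pow_ne_zero _ hp.ne_zero
    have hnk : n = p ^ k * p := pow_succ p k
    have hv0 : v ≠ 0 := hvP.1
    obtain ⟨g0, hg00, hc1, hc2⟩ := exists_norm S hn0 v hUC
    set v' := v * g0 ^ n with hv'
    have hv'P : PDiv Kb (FN (M1 * p)) n v' := hvP.mul (S35.PDiv.pow_self hg00)
    obtain ⟨u, hu, huP⟩ := exists_root hp k v' (g1 * g0 ^ p) hv'P (by
      rw [hv', mul_pow, mul_pow, hg1, ← pow_mul, ← pow_mul, mul_comm n p])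
    have hu0 : u ≠ 0 := huP.1
    have hgal : ∀ (σ : GQ) (x : FN (M1 * p)), x ≠ 0 → gal (M1 * p) σ x ≠ 0 := fun σ x hx =>
      (map_ne_zero_iff _ (gal (M1 * p) σ).injective).mpr hx
    have hcu : Cong (primeLocalPlace ⟨p, hp⟩) (M1 * p) u := cong_of_pow hp S.hA k u (hu ▸ hc1)
    have hcWu : Cong (primeLocalPlace ⟨p, hp⟩) (M1 * p) (Wq S.hc u) :=
      cong_of_pow hp S.hA k _ (by rw [← map_pow, ← hu]; exact hc2)
    obtain ⟨g, hg⟩ := hG u huP hcu hcWu σ₀ hσ₀ hmv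
      (root_unique hp k _ u (g2 * gal (M1 * p) σ₀ g0 * g0⁻¹) hu0 (by
        rw [← map_pow, ← hu, hv', map_mul, map_pow, hg2, ← hn, mul_pow, mul_pow, inv_pow]
        field_simp))
      (by
        intro σ hσ σ' hσ' c hc
        obtain ⟨g3, hg3⟩ := hquad σ hσ σ' hσ' c hc
        set w := gal (M1 * p) σ' g0 * g0⁻¹ with hw
        have hw0 : w ≠ 0 := mul_ne_zero (hgal σ' g0 hg00) (inv_ne_zero hg00)
        have e1 : (gal (M1 * p) σ' u * u⁻¹) ^ (p ^ k) = gal (M1 * p) σ' v * v⁻¹ * w ^ n := by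
          rw [mul_pow, inv_pow, ← map_pow, ← hu, hv', map_mul, map_pow, hw, mul_pow, inv_pow]
          field_simp
        refine root_unique hp k _ _ (g3 * gal (M1 * p) σ w * (w ^ c)⁻¹)
          (pow_ne_zero c (mul_ne_zero (hgal σ' u hu0) (inv_ne_zero hu0))) ?_
        rw [← map_pow, e1, map_mul, hg3, map_pow, ← pow_mul, mul_comm c, pow_mul, e1, ← hn]
        have hwc : (w ^ n) ^ c * ((w ^ c)⁻¹) ^ n = 1 := by
          rw [inv_pow, ← pow_mul, ← pow_mul, mul_comm n c]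
          exact mul_inv_cancel₀ (pow_ne_zero _ hw0)
        calc (gal (M1 * p) σ' v * v⁻¹) ^ c * g3 ^ n * gal (M1 * p) σ w ^ n
            = (gal (M1 * p) σ' v * v⁻¹) ^ c * g3 ^ n * gal (M1 * p) σ w ^ n *
                ((w ^ n) ^ c * ((w ^ c)⁻¹) ^ n) := by rw [hwc, mul_one]
          _ = (gal (M1 * p) σ' v * v⁻¹ * w ^ n) ^ c *
                (g3 * gal (M1 * p) σ w * (w ^ c)⁻¹) ^ n := by ring)
    refine ⟨g * g0⁻¹, ?_⟩
    have h1 : v' = g ^ n := by rw [hu, hg, ← pow_mul, hnk, Nat.mul_comm p (p ^ k)]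
    rw [mul_pow, ← h1, hv', inv_pow]
    field_simp


end Fermat.Agent.S33
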