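import Fermat.Agent.S33.Raw.Abs
import Fermat.Agent.S33.Raw.Kummer
import Fermat.Agent.S33.Raw.Level
import Fermat.Agent.S33.Raw.Norm
import Fermat.Agent.S33.IF.G

/-!
# S33/RAW : the interface `ESInterfaceO` at `p ‖ N`   (helper14)

`esInterfaceO_of_raw` with `X = S29.XN N`, `κ = S31.kap`, raw data from `S29/Wiring.lean` (as in `S31/ES.lean`); the new clause:
`thmG` (level `lcm(M1,2) p`) ⟹ `ThmGn` (`Norm.lean`) ⟹ `ThmGn` at level `M1 p` (`Level.lean`) ⟹ `OrdClauseAt` (`Kummer.lean`) ⟹ `OrdClause` (`Clause.lean`).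
-/

set_option autoImplicit false
set_option synthInstance.maxHeartbeats 400000

open Fermat.Agent.S29 Fermat.Agent.S31 Fermat.Agent.S24 Fermat.Agent.S34.Mod ExtCitation

namespace Fermat.Agent.S33

/-- `ThmGn` at all levels `M1 * p` -/
theorem thmGn {p : ℕ} [NeZero p] (hp : p.Prime) (hp2 : p ≠ 2) {M1 : ℕ} [NeZero M1]
    (h : Nat.Coprime p M1) (m : ℕ) : ThmGn hp M1 h m := by
  apply thmGn_of_lcm hp hp2 h m
  have S : Setup (Nat.lcm M1 2) p 2 (primeLocalPlace ⟨p, hp⟩) :=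
    ⟨Or.inl rfl, Nat.dvd_lcm_right M1 2, hp, coprime_lcm_two hp hp2 h,
      Fermat.Agent.S55.D.liesOverPrime_primeLocalPlace ⟨p, hp⟩⟩
  exact thmGn_of_thmG hp S (thmG hp hp2 S) m

theorem esInterfaceO {p : ℕ} {N : ℕ} [NeZero N] {S : Finset ℕ} (hp : p.Prime) (hp2 : p ≠ 2)
    (hN : p ∣ N ∧ ¬ p ^ 2 ∣ N) (hpS : p ∈ S)
    (hNS : ∀ q : ℕ, q.Prime → q ∣ N → q ∈ S) : ESInterfaceO N (↑S : Set ℕ) p := by
  have hKL : KLAll N := klAll N
  refine esInterfaceO_of_raw hp hNS (XN N) kap kap_injective (fun m => ?_)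
  have hm : p ^ m ≠ 0 := pow_ne_zero _ hp.ne_zero
  have hD := Fermat.Agent.S31.desc_holds N (p ^ m) hm
  have hnd : ∀ ℓ : ℕ, ℓ.Prime → ¬ ℓ ∣ N → ℓ ≠ p → ¬ ℓ ∣ N * p ^ m := by
    intro ℓ hℓ hN hne hd
    rcases (Nat.Prime.dvd_mul hℓ).mp hd with h | h
    · exact hN h
    · exact hne ((Nat.prime_dvd_prime_iff_eq hℓ hp).mp (hℓ.dvd_of_dvd_pow h))
  refine ⟨WW N (p ^ m), inferInstance, actW N (p ^ m), Theta hm hD, nsmul_WW,
    fun c hc => Theta_ker hm hD c hc, fun c => Theta_level hm hD c, ?_, ?_⟩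
  · intro ℓ hℓ hℓN hℓS A hA σ hσ g c
    have hℓp : ℓ ≠ p := fun h => hℓS (Finset.mem_coe.mpr (h ▸ hpS))
    rw [kap_T, ← TX_eq hℓ hℓN]
    exact Theta_ES hm hD (k3_holds' N _) (es1_of_KL N _ hKL) ℓ hℓ (hnd ℓ hℓ hℓN hℓp) A hA σ hσ g c
  · apply ordClause_of_at _ hp
    obtain ⟨⟨M1, hM⟩, hN2⟩ := hN
    have hN' : N = M1 * p := by rw [hM, mul_comm]
    subst hN'
    have hM0 : M1 ≠ 0 := fun h0 => NeZero.ne (M1 * p) (by rw [h0, zero_mul])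
    have : NeZero M1 := ⟨hM0⟩
    have : NeZero p := ⟨hp.ne_zero⟩
    have hc : Nat.Coprime p M1 := (Nat.Prime.coprime_iff_not_dvd hp).2 fun hd =>
      hN2 (by rw [sq]; exact Nat.mul_dvd_mul hd (dvd_refl p))
    exact ordClauseAt_of_thmGn hp hc m hD (thmGn hp hp2 hc m)

end Fermat.Agent.S33
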