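import Fermat.Agent.S33.Defs
import Fermat.Agent.S31.Raw

/-!
# S33/RAW-ABS : the interface `ESInterfaceO` from raw Kummer data (pure algebra)   (helper14)

Same as `Fermat.Agent.S31.esInterface_of_raw`; the clause on inertia is replaced by `OrdClause (S31.act1 act Θ) p`.
-/

set_option autoImplicit false

namespace Fermat.Agent.S33

open Fermat.Agent.S29 (Qb GQ)
open Fermat.Agent.S31

set_option maxHeartbeats 1600000 in
theorem esInterfaceO_of_raw {p N : ℕ} [NeZero N] {S : Finset ℕ} (hp : p.Prime)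
    (hNS : ∀ q : ℕ, q.Prime → q ∣ N → q ∈ S)
    (X : Type) [AddCommGroup X] [Module.Free ℤ X] [Module.Finite ℤ X]
    (κ : CuspForm.heckeAlgebra N 2 (↑S : Set ℕ) →+* Module.End ℤ X) (hκ : Function.Injective κ)
    (raw : ∀ m : ℕ, ∃ (𝒲 : Type) (_ : AddCommGroup 𝒲) (act : GQ →* AddMonoid.End 𝒲) (Θ : X →+ 𝒲),
      (∀ w : 𝒲, (p ^ m) • w = 0) ∧
      (∀ c, Θ c = 0 → ∃ c', c = (p ^ m) • c') ∧
      (∀ c, ∃ L : IntermediateField ℚ Qb, FiniteDimensional ℚ L ∧
        ∀ g : GQ, (∀ x ∈ L, g x = x) → act g (Θ c) = Θ c) ∧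
      (∀ (ℓ : ℕ) (hℓ : ℓ.Prime) (hℓN : ¬ ℓ ∣ N) (hℓS : ℓ ∉ (↑S : Set ℕ)) (A : ValuationSubring Qb),
        A.LiesOverPrime ℓ → ∀ σ : GQ, A.IsFrobeniusAt σ ℓ → ∀ (g : GQ) (c : X),
          act g (Θ (κ (CuspForm.heckeAlgebra.T hℓ hℓN hℓS) c)) =
            act σ (act g (Θ c)) + ℓ • act σ⁻¹ (act g (Θ c))) ∧
      OrdClause (act1 act Θ) p) :
    ESInterfaceO N (↑S : Set ℕ) p := by
  obtain ⟨e, he⟩ := exists_saturation κ hκ p hp
  intro n
  obtain ⟨𝒲, _, act, Θ, hkill, hker, hlevel, hES, hO⟩ := raw (n + e)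
  have hall : ∀ t, HasLift act Θ κ t := by
    rintro ⟨t, ht⟩
    induction ht using Algebra.adjoin_induction with
    | mem x hx =>
      rcases hx with ⟨ℓ, hℓ, hℓN, hℓS, rfl⟩ | ⟨q, hqN, hq, hqS, rfl⟩
      · obtain ⟨A, hA⟩ := Fermat.Agent.Frob.exists_liesOverPrime hℓ
        obtain ⟨σ, hσ⟩ := Fermat.Agent.Frob.exists_isFrobeniusAt A hℓ hA
        refine ⟨act σ + (ℓ : AddMonoid.End 𝒲) * act σ⁻¹, fun g c => ?_⟩
        rw [end_add_apply, end_mul_apply, AddMonoid.End.natCast_apply]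
        exact (hES ℓ hℓ hℓN hℓS A hA σ hσ g c).symm
      · exact absurd (Finset.mem_coe.mpr (hNS q hq hqN)) hqS
    | algebraMap r => exact HasLift.intCast act Θ κ r
    | add x y hx hy ihx ihy => exact ihx.add act Θ κ ihy
    | mul x y hx hy ihx ihy => exact ihx.mul act Θ κ ihy
  obtain ⟨L, hLfin, hLnorm, hL⟩ := exists_level act Θ hlevel
  refine ⟨n + e, W1 act Θ, inferInstance, act1 act Θ, a1 act Θ κ hall, Nat.le_add_right _ _,
    finite_W1 act Θ (p ^ (n + e)) (pow_pos hp.pos _) hkill L hL,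
    fun w => Subtype.ext (hkill w), ⟨L, hLfin, fun σ hσ => act1_eq_one_of_fixes act Θ L hL σ hσ⟩,
    fun x g => a1_commute act Θ κ hall x g, ?_, hO, ?_⟩
  · intro ℓ hℓ hℓN hℓS A hA τ hτ
    apply end_ext_W1
    intro g c
    apply Subtype.ext
    rw [end_add_apply, end_sub_apply, end_mul_apply, end_mul_apply, act1_gen, act1_gen,
      AddMonoid.End.natCast_apply, end_zero_apply, AddSubgroup.coe_add, AddSubgroup.coe_sub, a1_gen,
      hES ℓ hℓ hℓN hℓS A hA τ hτ (τ * g) c]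
    have h1 : act τ⁻¹ (act (τ * g) (Θ c)) = act g (Θ c) := by
      rw [← end_mul_apply, ← map_mul, inv_mul_cancel_left]
    have h2 : act τ (act (τ * g) (Θ c)) = act (τ * (τ * g)) (Θ c) := by
      rw [← end_mul_apply, ← map_mul]
    rw [h1, h2]
    simp
  · intro x hx
    apply he n x
    intro v
    apply hker
    have h1 := a1_gen act Θ κ hall x 1 v
    rw [hx, end_zero_apply] at h1
    have h2 : act 1 (Θ (κ x v)) = Θ (κ x v) := by rw [map_one, end_one_apply]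
    rw [← h2, ← h1]; rfl

end Fermat.Agent.S33
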