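import Fermat.Agent.S33.Defs
import Fermat.Agent.S34.Mod.Level
import Fermat.Agent.S34.Mod.MainI4
import Fermat.Agent.S55.Coh.Arith

/-!
# S33/RAW : the contract with the geometric layers : THEOREM G          (sub-owner helper14; contract with helper1)

`p` prime, `A = AA p = primeLocalPlace ⟨p, hp⟩`, `I = Iq ⟨p, hp⟩ = A.inertiaSubgroupIn ℚ`, level `M1 * p`, `p ∤ M1`, `W = Wq h`.

* `ThmG hp M1 h` (exponent `p`, representative `≡ 1` on both components) : what the geometric layers prove, ONLY under `Setup M1 p r A` (`r ∈ {2,3}`, `r ∣ M1`).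
* `ThmGn hp M1 h m` (exponent `p ^ m`, representative `≡` unit constants on both components) : what RAW needs, at every level `M1`.
-/

set_option autoImplicit false
set_option synthInstance.maxHeartbeats 400000

open HahnSeries ModularCurve AlgebraicCurve Fermat.Agent.S24 Fermat.Agent.S29 Fermat.Agent.S18
  Fermat.Agent.ES Fermat.Agent.ES.Alg Fermat.Agent.S34.Mod ExtCitation
open Fermat.Agent.S55 (Dq Iq)

noncomputable section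

namespace Fermat.Agent.S33

variable {p : ℕ} [NeZero p]

/-- **THEOREM G** at level `M1 * p` -/
def ThmG (hp : p.Prime) (M1 : ℕ) [NeZero M1] (h : Nat.Coprime p M1) : Prop :=
  ∀ u : FN (M1 * p), PDiv Kb (FN (M1 * p)) p u →
    Cong (primeLocalPlace ⟨p, hp⟩) (M1 * p) u → Cong (primeLocalPlace ⟨p, hp⟩) (M1 * p) (Wq h u) →
    ∀ σ₀ ∈ Iq ⟨p, hp⟩, (∃ ζ : Qb, ζ ^ p = 1 ∧ σ₀ ζ ≠ ζ) →
    (∃ g : FN (M1 * p), gal (M1 * p) σ₀ u = u * g ^ p) →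
    (∀ σ ∈ Iq ⟨p, hp⟩, ∀ σ' ∈ Iq ⟨p, hp⟩, ∀ c : ℕ, (∀ μ : Qb, μ ^ p = 1 → σ μ = μ ^ c) →
      ∃ g : FN (M1 * p), gal (M1 * p) σ (gal (M1 * p) σ' u * u⁻¹) =
        (gal (M1 * p) σ' u * u⁻¹) ^ c * g ^ p) →
    ∃ g : FN (M1 * p), u = g ^ p

/-- `v` is congruent to unit constants on both components -/
def UC2 (A : ValuationSubring Kb) (M1 : ℕ) [NeZero M1] (h : Nat.Coprime p M1) (v : FN (M1 * p)) : Prop :=
  (∃ a : Aˣ, Cong A (M1 * p) (algebraMap Kb (FN (M1 * p)) ((a : A) : Kb) * v)) ∧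
  (∃ a : Aˣ, Cong A (M1 * p) (algebraMap Kb (FN (M1 * p)) ((a : A) : Kb) * Wq h v))

/-- the version of Theorem G for the exponent `p ^ m` -/
def ThmGn (hp : p.Prime) (M1 : ℕ) [NeZero M1] (h : Nat.Coprime p M1) (m : ℕ) : Prop :=
  ∀ v : FN (M1 * p), PDiv Kb (FN (M1 * p)) (p ^ m) v → UC2 (primeLocalPlace ⟨p, hp⟩) M1 h v →
    (∃ g : FN (M1 * p), v ^ p = g ^ (p ^ m)) →
    ∀ σ₀ ∈ Iq ⟨p, hp⟩, (∃ ζ : Qb, ζ ^ p = 1 ∧ σ₀ ζ ≠ ζ) →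
    (∃ g : FN (M1 * p), gal (M1 * p) σ₀ v = v * g ^ (p ^ m)) →
    (∀ σ ∈ Iq ⟨p, hp⟩, ∀ σ' ∈ Iq ⟨p, hp⟩, ∀ c : ℕ, (∀ μ : Qb, μ ^ p = 1 → σ μ = μ ^ c) →
      ∃ g : FN (M1 * p), gal (M1 * p) σ (gal (M1 * p) σ' v * v⁻¹) =
        (gal (M1 * p) σ' v * v⁻¹) ^ c * g ^ (p ^ m)) →
    ∃ g : FN (M1 * p), v = g ^ (p ^ m)

end Fermat.Agent.S33
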